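/-
GEN-11 (P-GENUS): "nice" functions on the upper half plane (1-periodic, holomorphic, bounded at
`i∞`) and their `q`-expansions.
-/
import Mathlib

set_option autoImplicit false

noncomputable section

open UpperHalfPlane Function Filter
open scoped Manifold Topology

namespace Fermat.Agent.H44

/-- A wrapper for plain functions `ℍ → ℂ` carrying a `FunLike` instance. -/
def Gen11Fn : Type := ℍ → ℂ

instance gen11FnFunLike : FunLike Gen11Fn ℍ ℂ where
  coe f := f
  coe_injective _ _ h := h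

/-- A function on the upper half plane is *nice* if it is `1`-periodic, holomorphic and bounded
at `i∞`. -/
def IsNiceFn (f : ℍ → ℂ) : Prop :=
  Function.Periodic (f ∘ UpperHalfPlane.ofComplex) ((1 : ℝ) : ℂ) ∧ MDiff f ∧
    UpperHalfPlane.IsBoundedAtImInfty f

theorem IsNiceFn.analyticAt {f : ℍ → ℂ} (hf : IsNiceFn f) :
    AnalyticAt ℂ (cuspFunction 1 f) 0 :=
  analyticAt_cuspFunction_zero one_pos hf.1 hf.2.1 hf.2.2

theorem IsNiceFn.hasSum {f : ℍ → ℂ} (hf : IsNiceFn f) (τ : ℍ) :
    HasSum (fun m : ℕ => (qExpansion 1 f).coeff m • Function.Periodic.qParam 1 τ ^ m) (f τ) :=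
  hasSum_qExpansion one_pos hf.1 hf.2.1 hf.2.2 τ

theorem IsNiceFn.add {f g : ℍ → ℂ} (hf : IsNiceFn f) (hg : IsNiceFn g) : IsNiceFn (f + g) :=
  ⟨fun w => by
      have h1 := hf.1 w
      have h2 := hg.1 w
      simp only [Function.comp_apply, Pi.add_apply] at h1 h2 ⊢
      rw [h1, h2],
    hf.2.1.add hg.2.1, hf.2.2.add hg.2.2⟩

theorem IsNiceFn.mul {f g : ℍ → ℂ} (hf : IsNiceFn f) (hg : IsNiceFn g) : IsNiceFn (f * g) :=
  ⟨fun w => by
      have h1 := hf.1 w
      have h2 := hg.1 w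
      simp only [Function.comp_apply, Pi.mul_apply] at h1 h2 ⊢
      rw [h1, h2],
    hf.2.1.mul hg.2.1, hf.2.2.mul hg.2.2⟩

theorem IsNiceFn.neg {f : ℍ → ℂ} (hf : IsNiceFn f) : IsNiceFn (-f) :=
  ⟨fun w => by
      have h1 := hf.1 w
      simp only [Function.comp_apply, Pi.neg_apply] at h1 ⊢
      rw [h1],
    hf.2.1.neg, hf.2.2.neg⟩

theorem isNiceFn_const (c : ℂ) : IsNiceFn (fun _ => c) :=
  ⟨fun _ => rfl, mdifferentiable_const, Filter.const_boundedAtFilter _ c⟩

theorem isNiceFn_one : IsNiceFn (1 : ℍ → ℂ) := isNiceFn_const 1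

theorem isNiceFn_zero : IsNiceFn (0 : ℍ → ℂ) := isNiceFn_const 0

theorem IsNiceFn.pow {f : ℍ → ℂ} (hf : IsNiceFn f) (n : ℕ) : IsNiceFn (f ^ n) := by
  induction n with
  | zero => simpa using isNiceFn_one
  | succ n ih => rw [pow_succ]; exact ih.mul hf

theorem IsNiceFn.sub {f g : ℍ → ℂ} (hf : IsNiceFn f) (hg : IsNiceFn g) : IsNiceFn (f - g) := by
  rw [sub_eq_add_neg]; exact hf.add hg.neg

/-- Uniqueness of `q`-expansion coefficients, for plain functions. -/
theorem gen11_qExpansion_coeff_unique {f : ℍ → ℂ} {c : ℕ → ℂ}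
    (han : AnalyticAt ℂ (cuspFunction 1 f) 0)
    (hf : ∀ τ : ℍ, HasSum (fun m : ℕ => c m • Function.Periodic.qParam 1 τ ^ m) (f τ)) (m : ℕ) :
    c m = (qExpansion 1 f).coeff m :=
  qExpansion_coeff_unique (F := Gen11Fn) (show Gen11Fn from f) one_pos han hf m

theorem IsNiceFn.qExpansion_add {f g : ℍ → ℂ} (hf : IsNiceFn f) (hg : IsNiceFn g) :
    qExpansion 1 (f + g) = qExpansion 1 f + qExpansion 1 g :=
  UpperHalfPlane.qExpansion_add hf.analyticAt hg.analyticAt

theorem IsNiceFn.qExpansion_mul {f g : ℍ → ℂ} (hf : IsNiceFn f) (hg : IsNiceFn g) :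
    qExpansion 1 (f * g) = qExpansion 1 f * qExpansion 1 g :=
  UpperHalfPlane.qExpansion_mul hf.analyticAt hg.analyticAt

theorem IsNiceFn.qExpansion_neg {f : ℍ → ℂ} (hf : IsNiceFn f) :
    qExpansion 1 (-f) = -qExpansion 1 f :=
  UpperHalfPlane.qExpansion_neg hf.analyticAt

theorem IsNiceFn.qExpansion_pow {f : ℍ → ℂ} (hf : IsNiceFn f) (n : ℕ) :
    qExpansion 1 (f ^ n) = qExpansion 1 f ^ n := by
  induction n with
  | zero => simpa using qExpansion_one 1
  | succ n ih => rw [pow_succ, (hf.pow n).qExpansion_mul hf, ih, pow_succ]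

theorem gen11_qExpansion_const (c : ℂ) :
    qExpansion 1 (fun _ : ℍ => c) = PowerSeries.C c := by
  have h : (fun _ : ℍ => c) = c • (1 : ℍ → ℂ) := by
    funext z; simp
  rw [h, UpperHalfPlane.qExpansion_smul isNiceFn_one.analyticAt, qExpansion_one]
  ext n
  simp [PowerSeries.coeff_C, PowerSeries.coeff_one]

/-- `q`-expansions of nice functions determine the function. -/
theorem IsNiceFn.eq_of_qExpansion_eq {f g : ℍ → ℂ} (hf : IsNiceFn f) (hg : IsNiceFn g)
    (h : qExpansion 1 f = qExpansion 1 g) : f = g := by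
  funext τ
  have h1 := hf.hasSum τ
  have h2 := hg.hasSum τ
  rw [h] at h1
  exact h1.unique h2

/-- The function `q = exp (2 π i z)` on the upper half plane. -/
def qqFn : ℍ → ℂ := fun z => Function.Periodic.qParam 1 (z : ℂ)

theorem qqFn_ne_zero (z : ℍ) : qqFn z ≠ 0 := Function.Periodic.qParam_ne_zero _

theorem qqFn_pow_ne_zero (m : ℕ) (z : ℍ) : (qqFn ^ m) z ≠ 0 := by
  rw [Pi.pow_apply]; exact pow_ne_zero _ (qqFn_ne_zero z)

theorem gen11_qParam_add_one (w : ℂ) :
    Function.Periodic.qParam 1 (w + 1) = Function.Periodic.qParam 1 w := by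
  simp only [Function.Periodic.qParam, Complex.ofReal_one, div_one]
  rw [mul_add, mul_one, Complex.exp_add, Complex.exp_two_pi_mul_I, mul_one]

theorem mdifferentiable_qqFn : MDiff qqFn := by
  rw [UpperHalfPlane.mdifferentiable_iff]
  intro w hw
  have hd : DifferentiableAt ℂ (Function.Periodic.qParam 1) w :=
    Function.Periodic.differentiable_qParam w
  refine (hd.differentiableWithinAt).congr (fun y hy => ?_) ?_
  · simp only [Function.comp_apply, qqFn, ofComplex_apply_of_im_pos hy]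
  · simp only [Function.comp_apply, qqFn, ofComplex_apply_of_im_pos hw]

theorem hasSum_qqFn (τ : ℍ) :
    HasSum (fun m : ℕ => (if m = 1 then (1 : ℂ) else 0) • Function.Periodic.qParam 1 τ ^ m)
      (qqFn τ) := by
  have h := hasSum_ite_eq (1 : ℕ) (Function.Periodic.qParam 1 (τ : ℂ))
  have e : (fun m : ℕ => (if m = 1 then (1 : ℂ) else 0) • Function.Periodic.qParam 1 (τ : ℂ) ^ m)
      = fun m : ℕ => if m = 1 then Function.Periodic.qParam 1 (τ : ℂ) else 0 := by
    funext m
    by_cases hm : m = 1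
    · simp [hm]
    · simp [hm]
  rw [e]
  exact h

theorem isNiceFn_qqFn : IsNiceFn qqFn := by
  refine ⟨fun w => ?_, mdifferentiable_qqFn,
    isBoundedAtImInfty_of_hasSum_qExpansion one_pos hasSum_qqFn⟩
  by_cases hw : 0 < w.im
  · have hw' : 0 < (w + ((1 : ℝ) : ℂ)).im := by simpa using hw
    simp only [Function.comp_apply, qqFn, ofComplex_apply_of_im_pos hw,
      ofComplex_apply_of_im_pos hw']
    show Function.Periodic.qParam 1 (w + ((1 : ℝ) : ℂ)) = Function.Periodic.qParam 1 w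
    rw [Complex.ofReal_one, gen11_qParam_add_one]
  · have hw1 : w.im ≤ 0 := not_lt.mp hw
    have hw' : (w + ((1 : ℝ) : ℂ)).im ≤ 0 := by simpa using hw1
    simp only [Function.comp_apply, ofComplex_apply_of_im_nonpos hw1,
      ofComplex_apply_of_im_nonpos hw']

theorem qExpansion_qqFn : qExpansion 1 qqFn = PowerSeries.X := by
  ext m
  rw [← gen11_qExpansion_coeff_unique isNiceFn_qqFn.analyticAt hasSum_qqFn m,
    PowerSeries.coeff_X]

end Fermat.Agent.H44

end
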