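/-
GEN-11 (P-GENUS): the relation "the holomorphic function `h` on the upper half plane has the
Laurent `q`-expansion `x`", and the lifting lemma producing ring homomorphisms into functions.
-/
import Fermat.Agent.H44.Gen11.Nice

set_option autoImplicit false

noncomputable section

open UpperHalfPlane Function Filter
open scoped Manifold Topology

namespace Fermat.Agent.H44

/-- `q^m h` is nice, with `q`-expansion `q^m x`. -/
def LaurentRelAt (m : ℕ) (h : ℍ → ℂ) (x : LaurentSeries ℂ) : Prop :=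
  IsNiceFn (qqFn ^ m * h) ∧
    HahnSeries.ofPowerSeries ℤ ℂ (qExpansion 1 (qqFn ^ m * h))
      = HahnSeries.single (m : ℤ) (1 : ℂ) * x

/-- The function `h` has Laurent `q`-expansion `x` (with a pole of finite order at `i∞`). -/
def LaurentRel (h : ℍ → ℂ) (x : LaurentSeries ℂ) : Prop := ∃ m : ℕ, LaurentRelAt m h x

theorem gen11_single_add (a b : ℕ) :
    (HahnSeries.single ((a + b : ℕ) : ℤ) (1 : ℂ) : LaurentSeries ℂ)
      = HahnSeries.single (a : ℤ) (1 : ℂ) * HahnSeries.single (b : ℤ) (1 : ℂ) := by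
  rw [HahnSeries.single_mul_single, one_mul, Nat.cast_add]

theorem gen11_single_ne_zero (a : ℤ) :
    (HahnSeries.single a (1 : ℂ) : LaurentSeries ℂ) ≠ 0 :=
  HahnSeries.single_ne_zero one_ne_zero

theorem LaurentRelAt.shift {m : ℕ} {h : ℍ → ℂ} {x : LaurentSeries ℂ}
    (H : LaurentRelAt m h x) (k : ℕ) : LaurentRelAt (k + m) h x := by
  have e : qqFn ^ (k + m) * h = qqFn ^ k * (qqFn ^ m * h) := by
    rw [pow_add, mul_assoc]
  refine ⟨?_, ?_⟩
  · rw [e]; exact (isNiceFn_qqFn.pow k).mul H.1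
  · rw [e, (isNiceFn_qqFn.pow k).qExpansion_mul H.1, isNiceFn_qqFn.qExpansion_pow,
      qExpansion_qqFn, map_mul, HahnSeries.ofPowerSeries_X_pow, H.2, gen11_single_add,
      mul_assoc]

theorem LaurentRelAt.of_le {m M : ℕ} {h : ℍ → ℂ} {x : LaurentSeries ℂ}
    (H : LaurentRelAt m h x) (hmM : m ≤ M) : LaurentRelAt M h x := by
  obtain ⟨k, rfl⟩ := Nat.exists_eq_add_of_le hmM
  rw [add_comm]
  exact H.shift k

theorem LaurentRel.add {h h' : ℍ → ℂ} {x x' : LaurentSeries ℂ}
    (H : LaurentRel h x) (H' : LaurentRel h' x') : LaurentRel (h + h') (x + x') := by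
  obtain ⟨m, hm⟩ := H
  obtain ⟨m', hm'⟩ := H'
  have h1 := hm.of_le (le_max_left m m')
  have h2 := hm'.of_le (le_max_right m m')
  refine ⟨max m m', ?_, ?_⟩
  · rw [mul_add]; exact h1.1.add h2.1
  · rw [mul_add, h1.1.qExpansion_add h2.1, map_add, h1.2, h2.2, mul_add]

theorem LaurentRel.mul {h h' : ℍ → ℂ} {x x' : LaurentSeries ℂ}
    (H : LaurentRel h x) (H' : LaurentRel h' x') : LaurentRel (h * h') (x * x') := by
  obtain ⟨m, hm⟩ := H
  obtain ⟨m', hm'⟩ := H'
  have e : qqFn ^ (m + m') * (h * h') = (qqFn ^ m * h) * (qqFn ^ m' * h') := by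
    rw [pow_add]; ring
  refine ⟨m + m', ?_, ?_⟩
  · rw [e]; exact hm.1.mul hm'.1
  · rw [e, hm.1.qExpansion_mul hm'.1, map_mul, hm.2, hm'.2, gen11_single_add]
    ring

theorem laurentRel_const (c : ℂ) : LaurentRel (fun _ => c) (HahnSeries.C c) := by
  refine ⟨0, ?_, ?_⟩
  · rw [pow_zero, one_mul]; exact isNiceFn_const c
  · rw [pow_zero, one_mul, gen11_qExpansion_const, HahnSeries.ofPowerSeries_C]
    simp

theorem laurentRel_one : LaurentRel (1 : ℍ → ℂ) (1 : LaurentSeries ℂ) := by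
  have h := laurentRel_const 1
  rwa [map_one] at h

theorem laurentRel_zero : LaurentRel (0 : ℍ → ℂ) (0 : LaurentSeries ℂ) := by
  have h := laurentRel_const 0
  rwa [map_zero] at h

theorem LaurentRel.unique_right {h : ℍ → ℂ} {x y : LaurentSeries ℂ}
    (H : LaurentRel h x) (H' : LaurentRel h y) : x = y := by
  obtain ⟨m, hm⟩ := H
  obtain ⟨m', hm'⟩ := H'
  have h1 := hm.of_le (le_max_left m m')
  have h2 := hm'.of_le (le_max_right m m')
  exact mul_left_cancel₀ (gen11_single_ne_zero _) (h1.2.symm.trans h2.2)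

theorem LaurentRel.unique_left {h h' : ℍ → ℂ} {x : LaurentSeries ℂ}
    (H : LaurentRel h x) (H' : LaurentRel h' x) : h = h' := by
  obtain ⟨m, hm⟩ := H
  obtain ⟨m', hm'⟩ := H'
  have h1 := hm.of_le (le_max_left m m')
  have h2 := hm'.of_le (le_max_right m m')
  have e : qqFn ^ (max m m') * h = qqFn ^ (max m m') * h' :=
    h1.1.eq_of_qExpansion_eq h2.1 (HahnSeries.ofPowerSeries_injective (h1.2.trans h2.2.symm))
  funext z
  have ez := congrFun e z
  simp only [Pi.mul_apply] at ez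
  exact mul_left_cancel₀ (qqFn_pow_ne_zero _ z) ez

theorem LaurentRel.mdifferentiable {h : ℍ → ℂ} {x : LaurentSeries ℂ}
    (H : LaurentRel h x) : MDiff h := by
  obtain ⟨m, hm⟩ := H
  have h1 := UpperHalfPlane.mdifferentiable_iff.mp hm.1.2.1
  have h2 := UpperHalfPlane.mdifferentiable_iff.mp (isNiceFn_qqFn.pow m).2.1
  rw [UpperHalfPlane.mdifferentiable_iff]
  have e : h ∘ ofComplex = fun w => ((qqFn ^ m * h) ∘ ofComplex) w / ((qqFn ^ m) ∘ ofComplex) w := by
    funext w
    simp only [Function.comp_apply, Pi.mul_apply]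
    rw [mul_div_cancel_left₀ _ (qqFn_pow_ne_zero m _)]
  rw [e]
  exact h1.div h2 (fun w _ => qqFn_pow_ne_zero m _)

/-- **Lifting lemma**: a ring homomorphism into Laurent series all of whose values are Laurent
expansions of functions lifts to a ring homomorphism into functions. -/
theorem gen11_exists_lift {R : Type*} [CommRing R] (φ : R →+* LaurentSeries ℂ)
    (hφ : ∀ r, ∃ h : ℍ → ℂ, LaurentRel h (φ r)) :
    ∃ Θ : R →+* (ℍ → ℂ), ∀ r, LaurentRel (Θ r) (φ r) := by
  choose Θ hΘ using hφ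
  refine ⟨{ toFun := Θ, map_one' := ?_, map_mul' := ?_, map_zero' := ?_, map_add' := ?_ }, hΘ⟩
  · exact (hΘ 1).unique_left (by rw [map_one]; exact laurentRel_one)
  · intro a b
    exact (hΘ (a * b)).unique_left (by rw [map_mul]; exact (hΘ a).mul (hΘ b))
  · exact (hΘ 0).unique_left (by rw [map_zero]; exact laurentRel_zero)
  · intro a b
    exact (hΘ (a + b)).unique_left (by rw [map_add]; exact (hΘ a).add (hΘ b))

end Fermat.Agent.H44

end
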