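/-
GEN-11 (P-GENUS): behaviour of nice functions and Laurent `q`-expansions under `z ↦ d z`.
-/
import Fermat.Agent.H44.Gen11.Rel
import Fermat.Agent.H23.BlueprintAn
import Fermat.Prelude.Thm_ModularCurve_coeffMap_qExpand

set_option autoImplicit false

noncomputable section

open UpperHalfPlane Function Filter
open scoped Manifold Topology

namespace Fermat.Agent.H44

open Fermat.Agent.H23

theorem coe_scaleH (d : ℕ) [NeZero d] (z : ℍ) : ((scaleH d z : ℍ) : ℂ) = (d : ℂ) * (z : ℂ) := rfl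

theorem qqFn_scaleH (d : ℕ) [NeZero d] (z : ℍ) : qqFn (scaleH d z) = qqFn z ^ d := by
  simp only [qqFn, coe_scaleH, Function.Periodic.qParam, Complex.ofReal_one, div_one]
  rw [← Complex.exp_nat_mul]
  congr 1
  ring

/-- The coefficients of the `q`-expansion of `F (d z)`. -/
def scaleCoeff (d : ℕ) (p : PowerSeries ℂ) : ℕ → ℂ :=
  fun m => if d ∣ m then p.coeff (m / d) else 0

theorem hasSum_scale {F : ℍ → ℂ} (hF : IsNiceFn F) (d : ℕ) [NeZero d] (τ : ℍ) :
    HasSum (fun m : ℕ => scaleCoeff d (qExpansion 1 F) m • Function.Periodic.qParam 1 τ ^ m)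
      (F (scaleH d τ)) := by
  have hd : 0 < d := Nat.pos_of_ne_zero (NeZero.ne d)
  have hs := hF.hasSum (scaleH d τ)
  have hq : Function.Periodic.qParam 1 ((scaleH d τ : ℍ) : ℂ)
      = Function.Periodic.qParam 1 (τ : ℂ) ^ d := qqFn_scaleH d τ
  simp_rw [hq, ← pow_mul] at hs
  have hinj : Function.Injective (fun m : ℕ => d * m) := mul_right_injective₀ hd.ne'
  have hsupp : ∀ x ∉ Set.range (fun m : ℕ => d * m),
      (fun m : ℕ => scaleCoeff d (qExpansion 1 F) m • Function.Periodic.qParam 1 (τ : ℂ) ^ m) x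
        = 0 := by
    intro x hx
    have : ¬ d ∣ x := by
      rintro ⟨e, rfl⟩
      exact hx ⟨e, rfl⟩
    simp [scaleCoeff, this]
  refine (hinj.hasSum_iff hsupp).mp ?_
  convert hs using 1
  funext m
  simp [scaleCoeff, Nat.mul_div_cancel_left _ hd]

theorem IsNiceFn.scale {F : ℍ → ℂ} (hF : IsNiceFn F) (d : ℕ) [NeZero d] :
    IsNiceFn (F ∘ scaleH d) := by
  have hd : 0 < d := Nat.pos_of_ne_zero (NeZero.ne d)
  refine ⟨fun w => ?_, ?_, isBoundedAtImInfty_of_hasSum_qExpansion one_pos (hasSum_scale hF d)⟩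
  · by_cases hw : 0 < w.im
    · have hw' : 0 < (w + ((1 : ℝ) : ℂ)).im := by simpa using hw
      simp only [Function.comp_apply, ofComplex_apply_of_im_pos hw,
        ofComplex_apply_of_im_pos hw']
      have h1 := (hasSum_scale hF d ⟨w + ((1 : ℝ) : ℂ), hw'⟩).tsum_eq
      have h2 := (hasSum_scale hF d ⟨w, hw⟩).tsum_eq
      rw [← h1, ← h2]
      show (∑' m : ℕ, scaleCoeff d (qExpansion 1 F) m •
          Function.Periodic.qParam 1 (w + ((1 : ℝ) : ℂ)) ^ m)
        = ∑' m : ℕ, scaleCoeff d (qExpansion 1 F) m • Function.Periodic.qParam 1 w ^ m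
      rw [Complex.ofReal_one, gen11_qParam_add_one]
    · have hw1 : w.im ≤ 0 := not_lt.mp hw
      have hw' : (w + ((1 : ℝ) : ℂ)).im ≤ 0 := by simpa using hw1
      simp only [Function.comp_apply, ofComplex_apply_of_im_nonpos hw1,
        ofComplex_apply_of_im_nonpos hw']
  · rw [UpperHalfPlane.mdifferentiable_iff]
    have h1 := UpperHalfPlane.mdifferentiable_iff.mp hF.2.1
    have hmaps : Set.MapsTo (fun w : ℂ => (d : ℂ) * w) {z : ℂ | 0 < z.im} {z : ℂ | 0 < z.im} := by
      intro w hw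
      show 0 < ((d : ℂ) * w).im
      have : ((d : ℂ) * w).im = d * w.im := by simp
      rw [this]
      exact mul_pos (by exact_mod_cast hd) hw
    have h2 : DifferentiableOn ℂ (fun w : ℂ => (d : ℂ) * w) {z : ℂ | 0 < z.im} :=
      (differentiable_id.const_mul (d : ℂ)).differentiableOn
    refine (h1.comp h2 hmaps).congr (fun w hw => ?_)
    have hw' : 0 < ((d : ℂ) * w).im := hmaps hw
    simp only [Function.comp_apply, ofComplex_apply_of_im_pos hw,
      ofComplex_apply_of_im_pos hw']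
    congr 1

theorem qExpansion_scale_coeff {F : ℍ → ℂ} (hF : IsNiceFn F) (d : ℕ) [NeZero d] (m : ℕ) :
    (qExpansion 1 (F ∘ scaleH d)).coeff m = scaleCoeff d (qExpansion 1 F) m :=
  (gen11_qExpansion_coeff_unique (hF.scale d).analyticAt (hasSum_scale hF d) m).symm

theorem gen11_ofPowerSeries_coeff_neg (p : PowerSeries ℂ) {k : ℤ} (hk : k < 0) :
    (HahnSeries.ofPowerSeries ℤ ℂ p).coeff k = 0 := by
  rw [HahnSeries.ofPowerSeries_apply]
  refine HahnSeries.embDomain_of_notMem_range ?_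
  rintro ⟨m, rfl⟩
  exact absurd hk (not_lt.mpr (Int.natCast_nonneg m))

theorem qExpand_ofPowerSeries (d : ℕ) [NeZero d] (p : PowerSeries ℂ) :
    ModularCurve.qExpand ℂ d (HahnSeries.ofPowerSeries ℤ ℂ p)
      = HahnSeries.ofPowerSeries ℤ ℂ (PowerSeries.mk (scaleCoeff d p)) := by
  have hd : 0 < d := Nat.pos_of_ne_zero (NeZero.ne d)
  ext k
  by_cases hdk : (d : ℤ) ∣ k
  · obtain ⟨e, rfl⟩ := hdk
    rw [ModularCurve.qExpand_coeff_mul]
    rcases lt_or_ge e 0 with he | he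
    · rw [gen11_ofPowerSeries_coeff_neg _ he, gen11_ofPowerSeries_coeff_neg]
      exact mul_neg_of_pos_of_neg (by exact_mod_cast hd) he
    · obtain ⟨n, rfl⟩ := Int.eq_ofNat_of_zero_le he
      rw [HahnSeries.ofPowerSeries_apply_coeff,
        show (d : ℤ) * (n : ℤ) = ((d * n : ℕ) : ℤ) by push_cast; ring,
        HahnSeries.ofPowerSeries_apply_coeff, PowerSeries.coeff_mk]
      simp [scaleCoeff, Nat.mul_div_cancel_left _ hd]
  · rw [ModularCurve.qExpand_coeff_of_not_dvd d _ hdk]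
    rcases lt_or_ge k 0 with hk | hk
    · rw [gen11_ofPowerSeries_coeff_neg _ hk]
    · obtain ⟨n, rfl⟩ := Int.eq_ofNat_of_zero_le hk
      rw [HahnSeries.ofPowerSeries_apply_coeff, PowerSeries.coeff_mk]
      have : ¬ d ∣ n := fun h => hdk (Int.natCast_dvd_natCast.mpr h)
      simp [scaleCoeff, this]

theorem ofPowerSeries_qExpansion_scale {F : ℍ → ℂ} (hF : IsNiceFn F) (d : ℕ) [NeZero d] :
    HahnSeries.ofPowerSeries ℤ ℂ (qExpansion 1 (F ∘ scaleH d))
      = ModularCurve.qExpand ℂ d (HahnSeries.ofPowerSeries ℤ ℂ (qExpansion 1 F)) := by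
  rw [qExpand_ofPowerSeries]
  congr 1
  ext m
  rw [qExpansion_scale_coeff hF d m, PowerSeries.coeff_mk]

theorem LaurentRelAt.scale {m : ℕ} {h : ℍ → ℂ} {x : LaurentSeries ℂ}
    (H : LaurentRelAt m h x) (d : ℕ) [NeZero d] :
    LaurentRelAt (d * m) (h ∘ scaleH d) (ModularCurve.qExpand ℂ d x) := by
  have e : qqFn ^ (d * m) * (h ∘ scaleH d) = (qqFn ^ m * h) ∘ scaleH d := by
    funext z
    simp only [Pi.mul_apply, Pi.pow_apply, Function.comp_apply, qqFn_scaleH, pow_mul]
  refine ⟨?_, ?_⟩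
  · rw [e]; exact H.1.scale d
  · rw [e, ofPowerSeries_qExpansion_scale H.1 d, H.2, map_mul, ModularCurve.qExpand_single]
    congr 2

theorem LaurentRel.scale {h : ℍ → ℂ} {x : LaurentSeries ℂ}
    (H : LaurentRel h x) (d : ℕ) [NeZero d] :
    LaurentRel (h ∘ scaleH d) (ModularCurve.qExpand ℂ d x) := by
  obtain ⟨m, hm⟩ := H
  exact ⟨d * m, hm.scale d⟩

end Fermat.Agent.H44

end
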