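/-
GEN-11 (P-GENUS): the analytic `j`-function has Laurent `q`-expansion the formal series `jq`.
Uses helper17's identification of the `q`-expansions of `E₄` and `Δ`.
-/
import Fermat.Agent.H44.Gen11.Scale
import Fermat.Agent.H17.JBridge
import Fermat.Prelude.Def_ModularCurve_JqCoeff

set_option autoImplicit false

noncomputable section

open UpperHalfPlane Function Filter ModularForm
open scoped Manifold Topology MatrixGroups

namespace Fermat.Agent.H44

open Fermat.Agent.H23

theorem isNiceFn_E₄ : IsNiceFn (E₄ : ℍ → ℂ) :=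
  ⟨SlashInvariantFormClass.periodic_comp_ofComplex E₄ one_mem_strictPeriods_SL,
    ModularFormClass.holo E₄, ModularFormClass.bdd_at_infty E₄⟩

theorem isNiceFn_discriminant : IsNiceFn ModularForm.discriminant := by
  rw [← CuspForm.coe_discriminant]
  exact ⟨SlashInvariantFormClass.periodic_comp_ofComplex CuspForm.discriminant
      one_mem_strictPeriods_SL,
    ModularFormClass.holo CuspForm.discriminant,
    ModularFormClass.bdd_at_infty CuspForm.discriminant⟩

/-- The function `q · j = E₄³ / (Δ / q)`. -/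
def jNumFn : ℍ → ℂ := qqFn * jfun

theorem jNumFn_apply (z : ℍ) :
    jNumFn z = qqFn z * ((E₄ z) ^ 3 / ModularForm.discriminant z) := rfl

theorem jNumFn_mul_discriminant :
    jNumFn * ModularForm.discriminant = qqFn * (E₄ : ℍ → ℂ) ^ 3 := by
  funext z
  simp only [Pi.mul_apply, Pi.pow_apply, jNumFn_apply]
  have h := ModularForm.discriminant_ne_zero z
  field_simp

theorem isBoundedAtImInfty_qqFn_div_discriminant :
    IsBoundedAtImInfty (fun z : ℍ => qqFn z / ModularForm.discriminant z) := by
  have h := ModularForm.exp_isBigO_discriminant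
  rw [Asymptotics.isBigO_iff] at h
  obtain ⟨c, hc⟩ := h
  show (fun z : ℍ => qqFn z / ModularForm.discriminant z) =O[atImInfty] (1 : ℍ → ℝ)
  rw [Asymptotics.isBigO_iff]
  refine ⟨c, ?_⟩
  filter_upwards [hc] with z hz
  have hΔ : 0 < ‖ModularForm.discriminant z‖ :=
    norm_pos_iff.mpr (ModularForm.discriminant_ne_zero z)
  have hq : ‖qqFn z‖ = Real.exp (-2 * Real.pi * z.im) := by
    rw [qqFn, Function.Periodic.norm_qParam]
    simp
  rw [norm_div, hq, Pi.one_apply, norm_one, mul_one, div_le_iff₀ hΔ]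
  have h1 : ‖Real.exp (-2 * Real.pi * z.im)‖ = Real.exp (-2 * Real.pi * z.im) :=
    Real.norm_of_nonneg (Real.exp_pos _).le
  rw [h1] at hz
  exact hz

theorem isNiceFn_jNumFn : IsNiceFn jNumFn := by
  have hE := isNiceFn_E₄
  have hD := isNiceFn_discriminant
  have hq := isNiceFn_qqFn
  refine ⟨fun w => ?_, ?_, ?_⟩
  · have h1 := hE.1 w
    have h2 := hD.1 w
    have h3 := hq.1 w
    simp only [Function.comp_apply] at h1 h2 h3 ⊢
    rw [jNumFn_apply, jNumFn_apply, h1, h2, h3]
  · rw [UpperHalfPlane.mdifferentiable_iff]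
    have h1 := UpperHalfPlane.mdifferentiable_iff.mp hE.2.1
    have h2 := UpperHalfPlane.mdifferentiable_iff.mp hD.2.1
    have h3 := UpperHalfPlane.mdifferentiable_iff.mp hq.2.1
    have e : jNumFn ∘ ofComplex = fun w => (qqFn ∘ ofComplex) w *
        ((((E₄ : ℍ → ℂ) ∘ ofComplex) w) ^ 3 / (ModularForm.discriminant ∘ ofComplex) w) := by
      funext w
      simp only [Function.comp_apply, jNumFn_apply]
    rw [e]
    exact h3.mul ((h1.pow 3).div h2 (fun w _ => ModularForm.discriminant_ne_zero _))
  · have e : jNumFn = (E₄ : ℍ → ℂ) ^ 3 * (fun z : ℍ => qqFn z / ModularForm.discriminant z) := by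
      funext z
      simp only [Pi.mul_apply, Pi.pow_apply, jNumFn_apply]
      ring
    rw [e]
    exact (hE.pow 3).2.2.mul isBoundedAtImInfty_qqFn_div_discriminant

theorem gen11_map_unit_mul_inv :
    PowerSeries.map (Int.castRingHom ℂ) ModularCurve.dedekindEtaUnit
      * PowerSeries.map (Int.castRingHom ℂ) ModularCurve.dedekindEtaUnitInv = 1 := by
  rw [← map_mul, ModularCurve.dedekindEtaUnit_mul_inv, map_one]

theorem qExpansion_jNumFn :
    qExpansion 1 jNumFn = PowerSeries.map (Int.castRingHom ℂ) ModularCurve.jNum := by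
  have h := congrArg (qExpansion 1) jNumFn_mul_discriminant
  rw [isNiceFn_jNumFn.qExpansion_mul isNiceFn_discriminant,
    isNiceFn_qqFn.qExpansion_mul (isNiceFn_E₄.pow 3), isNiceFn_E₄.qExpansion_pow,
    qExpansion_qqFn, Fermat.Agent.H17.qExpansion_discriminant_eq,
    Fermat.Agent.H17.qExpansion_E₄_eq] at h
  have h1 : PowerSeries.X * (qExpansion 1 jNumFn
      * PowerSeries.map (Int.castRingHom ℂ) ModularCurve.dedekindEtaUnit)
      = PowerSeries.X * PowerSeries.map (Int.castRingHom ℂ) ModularCurve.eisenstein4 ^ 3 := by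
    rw [← h]; ring
  have h2 := mul_left_cancel₀ PowerSeries.X_ne_zero h1
  have h3 := congrArg (· * PowerSeries.map (Int.castRingHom ℂ) ModularCurve.dedekindEtaUnitInv) h2
  simp only [mul_assoc, gen11_map_unit_mul_inv, mul_one] at h3
  rw [h3, ModularCurve.jNum, map_mul, map_pow]

/-- **Bridge**: the analytic `j` has Laurent `q`-expansion the formal `j`. -/
theorem laurentRelAt_jfun : LaurentRelAt 1 jfun (ModularCurve.jqModC ℂ) := by
  have e : qqFn ^ 1 * jfun = jNumFn := by rw [pow_one]; rfl
  refine ⟨by rw [e]; exact isNiceFn_jNumFn, ?_⟩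
  rw [e, qExpansion_jNumFn, ModularCurve.jqModC, ← mul_assoc, HahnSeries.single_mul_single]
  simp

theorem laurentRel_jfun : LaurentRel jfun (ModularCurve.jqModC ℂ) := ⟨1, laurentRelAt_jfun⟩

/-- **Bridge, level `d`**: `z ↦ j (d z)` has Laurent `q`-expansion `jq (q^d)`. -/
theorem laurentRel_jfun_scale (d : ℕ) [NeZero d] :
    LaurentRel (fun z => jfun (scaleH d z)) (ModularCurve.qExpand ℂ d (ModularCurve.jqModC ℂ)) :=
  laurentRel_jfun.scale d

end Fermat.Agent.H44

end
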