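/-
GEN-11 (P-GENUS), part (4): the function field of `X₀(N)` over `ℚ̄` is the field of fractions
of the subalgebra `Rsub N` generated by the `j(q^d)`, `d ∣ N`.
-/
import Fermat.Agent.H23.BlueprintAn

set_option autoImplicit false

noncomputable section

open IntermediateField

namespace Fermat.Agent.H44

open Fermat.Agent.H23

/-- The generators `j(q^d)`, `d ∣ N`, as Laurent series over `ℚ̄`. -/
def gen11Gens (N : ℕ) : Set (LaurentSeries (AlgebraicClosure ℚ)) :=
  {x | ∃ (d : ℕ) (_ : NeZero d), d ∣ N ∧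
    x = ModularCurve.coeffEmb (AlgebraicClosure ℚ) (ModularCurve.qExpand ℚ d ModularCurve.jq)}

theorem gen11_coeffEmb_algebraMap (c : ℚ) :
    ModularCurve.coeffEmb (AlgebraicClosure ℚ) (algebraMap ℚ (LaurentSeries ℚ) c)
      = algebraMap (AlgebraicClosure ℚ) (LaurentSeries (AlgebraicClosure ℚ))
          (algebraMap ℚ (AlgebraicClosure ℚ) c) := by
  rw [ModularCurve.algebraMap_laurentSeries_eq_single,
    ModularCurve.algebraMap_laurentSeries_eq_single, ModularCurve.coeffEmb,
    ModularCurve.coeffMap_single]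

theorem gen11_coeffEmb_mem (N : ℕ) [NeZero N] {x : LaurentSeries ℚ}
    (hx : x ∈ ModularCurve.modularFunctionFieldFull N) :
    ModularCurve.coeffEmb (AlgebraicClosure ℚ) x ∈
      IntermediateField.adjoin (AlgebraicClosure ℚ) (gen11Gens N) := by
  rw [ModularCurve.modularFunctionFieldFull] at hx
  induction hx using IntermediateField.adjoin_induction with
  | mem x hx =>
    obtain ⟨d, hd, hdN, rfl⟩ := hx
    exact IntermediateField.subset_adjoin _ _ ⟨d, hd, hdN, rfl⟩
  | algebraMap c =>
    rw [gen11_coeffEmb_algebraMap]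
    exact IntermediateField.algebraMap_mem _ _
  | add x y _ _ hx hy => rw [map_add]; exact add_mem hx hy
  | inv x _ hx => rw [map_inv₀]; exact inv_mem hx
  | mul x y _ _ hx hy => rw [map_mul]; exact mul_mem hx hy

theorem gen11_functionField_le (N : ℕ) [NeZero N] :
    ModularCurve.modularFunctionFieldBar N ≤
      IntermediateField.adjoin (AlgebraicClosure ℚ) (gen11Gens N) := by
  rw [ModularCurve.modularFunctionFieldBar, ModularCurve.laurentBaseChange,
    IntermediateField.adjoin_le_iff]
  rintro _ ⟨x, hx, rfl⟩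
  exact gen11_coeffEmb_mem N hx

theorem gen11_algebraAdjoin_le (N : ℕ) [NeZero N] :
    Algebra.adjoin (AlgebraicClosure ℚ) (gen11Gens N) ≤
      (Rsub N).map (ModularCurve.modularFunctionFieldBar N).val := by
  rw [Algebra.adjoin_le_iff]
  rintro _ ⟨d, hd, hdN, rfl⟩
  have := hd
  refine ⟨jBarD N d hdN, ?_, rfl⟩
  exact Algebra.subset_adjoin ⟨d, hd, hdN, rfl⟩

/-- **GEN-11 (4)**: every element of the function field is a quotient of two elements of
`Rsub N`. -/
theorem gen11_exists_frac (N : ℕ) [NeZero N] (f : ↥(ModularCurve.modularFunctionFieldBar N)) :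
    ∃ r s : ↥(Rsub N), s ≠ 0 ∧
      f * (s : ↥(ModularCurve.modularFunctionFieldBar N)) = r := by
  have hf := gen11_functionField_le N f.2
  rw [IntermediateField.mem_adjoin_iff_div] at hf
  obtain ⟨r, hr, s, hs, hfrs⟩ := hf
  obtain ⟨r', hr', hrr⟩ := gen11_algebraAdjoin_le N hr
  obtain ⟨s', hs', hss⟩ := gen11_algebraAdjoin_le N hs
  by_cases h0 : s' = 0
  · refine ⟨0, 1, one_ne_zero, ?_⟩
    have hs0 : s = 0 := by rw [← hss, h0]; simp
    have hf0 : f = 0 := by
      apply Subtype.ext
      rw [hfrs, hs0, div_zero]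
      rfl
    rw [hf0]
    simp
  · refine ⟨⟨r', hr'⟩, ⟨s', hs'⟩, fun h => h0 (congrArg Subtype.val h), ?_⟩
    apply Subtype.ext
    show (f : LaurentSeries (AlgebraicClosure ℚ)) * (s' : LaurentSeries (AlgebraicClosure ℚ))
      = (r' : LaurentSeries (AlgebraicClosure ℚ))
    have hs0 : s ≠ 0 := by
      rw [← hss]
      intro h
      exact h0 (Subtype.ext h)
    have e1 : (s' : LaurentSeries (AlgebraicClosure ℚ)) = s := hss
    have e2 : (r' : LaurentSeries (AlgebraicClosure ℚ)) = r := hrr
    rw [e1, e2, hfrs, div_mul_cancel₀ _ hs0]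

end Fermat.Agent.H44

end
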