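/-
GEN-11 (P-GENUS), final assembly: `CoreStatement N` (helper23's blueprint), plus the
relation-transfer variant `core_rt` requested for GEN-16.
-/
import Fermat.Agent.H44.Gen11.Bridge
import Fermat.Agent.H44.Gen11.FracField

set_option autoImplicit false

noncomputable section

open UpperHalfPlane Function Filter ModularForm
open scoped Manifold Topology MatrixGroups

namespace Fermat.Agent.H44

open Fermat.Agent.H23

/-- A fixed embedding of `ℚ̄` into `ℂ`. -/
def gen11Iota : AlgebraicClosure ℚ →+* ℂ :=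
  haveI : Algebra.IsAlgebraic ℚ (AlgebraicClosure ℚ) := AlgebraicClosure.isAlgebraic ℚ
  (IsAlgClosed.lift : AlgebraicClosure ℚ →ₐ[ℚ] ℂ).toRingHom

/-- The Laurent series over `ℂ` of an element of the function field of `X₀(N)` over `ℚ̄`. -/
def gen11Phi (N : ℕ) [NeZero N] :
    ↥(ModularCurve.modularFunctionFieldBar N) →+* LaurentSeries ℂ :=
  (ModularCurve.coeffMap gen11Iota).comp (ModularCurve.modularFunctionFieldBar N).val.toRingHom

theorem gen11Phi_apply (N : ℕ) [NeZero N] (f : ↥(ModularCurve.modularFunctionFieldBar N)) :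
    gen11Phi N f = ModularCurve.coeffMap gen11Iota (f : LaurentSeries (AlgebraicClosure ℚ)) :=
  rfl

theorem gen11Phi_injective (N : ℕ) [NeZero N] : Function.Injective (gen11Phi N) :=
  (gen11Phi N).injective

theorem gen11Phi_algebraMap (N : ℕ) [NeZero N] (c : AlgebraicClosure ℚ) :
    gen11Phi N (algebraMap (AlgebraicClosure ℚ) ↥(ModularCurve.modularFunctionFieldBar N) c)
      = HahnSeries.C (gen11Iota c) := by
  rw [gen11Phi_apply]
  have h : ((algebraMap (AlgebraicClosure ℚ) ↥(ModularCurve.modularFunctionFieldBar N) c :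
      ↥(ModularCurve.modularFunctionFieldBar N)) : LaurentSeries (AlgebraicClosure ℚ))
      = algebraMap (AlgebraicClosure ℚ) (LaurentSeries (AlgebraicClosure ℚ)) c := rfl
  rw [h, ModularCurve.algebraMap_laurentSeries_eq_single, ModularCurve.coeffMap_single]
  rfl

theorem gen11Phi_jBarD (N : ℕ) [NeZero N] (d : ℕ) [NeZero d] (hd : d ∣ N) :
    gen11Phi N (jBarD N d hd) = ModularCurve.qExpand ℂ d (ModularCurve.jqModC ℂ) := by
  rw [gen11Phi_apply]
  show ModularCurve.coeffMap gen11Iota
    (ModularCurve.coeffEmb (AlgebraicClosure ℚ) (ModularCurve.qExpand ℚ d ModularCurve.jq)) = _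
  rw [ModularCurve.coeffEmb, ModularCurve.coeffMap_coeffMap, ModularCurve.coeffMap_qExpand]
  congr 1
  rw [← ModularCurve.jqModC_rat]
  exact ModularCurve.map_jqModC _

/-- Every element of `Rsub N` is the Laurent expansion of a function. -/
theorem gen11_exists_rel (N : ℕ) [NeZero N] {f : ↥(ModularCurve.modularFunctionFieldBar N)}
    (hf : f ∈ Rsub N) : ∃ h : ℍ → ℂ, LaurentRel h (gen11Phi N f) := by
  rw [Rsub] at hf
  induction hf using Algebra.adjoin_induction with
  | mem x hx =>
    obtain ⟨d, hd, hdN, rfl⟩ := hx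
    exact ⟨_, by rw [gen11Phi_jBarD]; exact laurentRel_jfun_scale d⟩
  | algebraMap c =>
    exact ⟨_, by rw [gen11Phi_algebraMap]; exact laurentRel_const _⟩
  | add x y _ _ hx hy =>
    obtain ⟨h1, hh1⟩ := hx
    obtain ⟨h2, hh2⟩ := hy
    exact ⟨_, by rw [map_add]; exact hh1.add hh2⟩
  | mul x y _ _ hx hy =>
    obtain ⟨h1, hh1⟩ := hx
    obtain ⟨h2, hh2⟩ := hy
    exact ⟨_, by rw [map_mul]; exact hh1.mul hh2⟩

/-- The Laurent series over `ℂ` of an element of `Rsub N`. -/
def gen11PhiR (N : ℕ) [NeZero N] : ↥(Rsub N) →+* LaurentSeries ℂ :=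
  (gen11Phi N).comp (Rsub N).val.toRingHom

theorem gen11PhiR_apply (N : ℕ) [NeZero N] (r : ↥(Rsub N)) :
    gen11PhiR N r = ModularCurve.coeffMap gen11Iota
      (((r : ↥(ModularCurve.modularFunctionFieldBar N)) : LaurentSeries (AlgebraicClosure ℚ))) :=
  rfl

theorem gen11PhiR_injective (N : ℕ) [NeZero N] : Function.Injective (gen11PhiR N) :=
  fun _ _ h => Subtype.ext (gen11Phi_injective N h)

theorem gen11_exists_theta (N : ℕ) [NeZero N] :
    ∃ Θ : ↥(Rsub N) →+* (ℍ → ℂ), ∀ r, LaurentRel (Θ r) (gen11PhiR N r) :=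
  gen11_exists_lift (gen11PhiR N) (fun r => gen11_exists_rel N r.2)

/-- **The map `Θ`**: the holomorphic function on the upper half plane with a given
`q`-expansion in `Rsub N`. -/
def gen11Theta (N : ℕ) [NeZero N] : ↥(Rsub N) →+* (ℍ → ℂ) :=
  Classical.choose (gen11_exists_theta N)

theorem gen11Theta_rel (N : ℕ) [NeZero N] (r : ↥(Rsub N)) :
    LaurentRel (gen11Theta N r) (gen11PhiR N r) :=
  Classical.choose_spec (gen11_exists_theta N) r

theorem gen11Theta_injective (N : ℕ) [NeZero N] : Function.Injective (gen11Theta N) := by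
  intro r r' h
  have h1 := gen11Theta_rel N r
  have h2 := gen11Theta_rel N r'
  rw [h] at h1
  exact gen11PhiR_injective N (h1.unique_right h2)

theorem gen11Theta_mdifferentiable (N : ℕ) [NeZero N] (r : ↥(Rsub N)) :
    MDiff (gen11Theta N r) :=
  (gen11Theta_rel N r).mdifferentiable

theorem gen11Theta_algebraMap (N : ℕ) [NeZero N] (c : AlgebraicClosure ℚ) :
    gen11Theta N (algebraMap (AlgebraicClosure ℚ) ↥(Rsub N) c) = fun _ => gen11Iota c := by
  refine (gen11Theta_rel N _).unique_left ?_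
  have h : gen11PhiR N (algebraMap (AlgebraicClosure ℚ) ↥(Rsub N) c)
      = HahnSeries.C (gen11Iota c) := gen11Phi_algebraMap N c
  rw [h]
  exact laurentRel_const _

theorem gen11Theta_jBarD (N : ℕ) [NeZero N] (d : ℕ) [NeZero d] (hd : d ∣ N)
    (h : jBarD N d hd ∈ Rsub N) :
    gen11Theta N ⟨jBarD N d hd, h⟩ = fun z => jfun (scaleH d z) := by
  refine (gen11Theta_rel N _).unique_left ?_
  have h' : gen11PhiR N ⟨jBarD N d hd, h⟩
      = ModularCurve.qExpand ℂ d (ModularCurve.jqModC ℂ) := gen11Phi_jBarD N d hd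
  rw [h']
  exact laurentRel_jfun_scale d

theorem LaurentRel.smul {h : ℍ → ℂ} {x : LaurentSeries ℂ} (H : LaurentRel h x) (c : ℂ) :
    LaurentRel (c • h) (c • x) := by
  have h1 := (laurentRel_const c).mul H
  have e1 : (fun _ : ℍ => c) * h = c • h := by
    funext z
    simp
  have e2 : HahnSeries.C c * x = c • x := HahnSeries.C_mul_eq_smul
  rwa [e1, e2] at h1

theorem LaurentRel.sum {ι' : Type*} (s : Finset ι') {h : ι' → ℍ → ℂ} {x : ι' → LaurentSeries ℂ}
    (H : ∀ i ∈ s, LaurentRel (h i) (x i)) : LaurentRel (∑ i ∈ s, h i) (∑ i ∈ s, x i) := by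
  classical
  induction s using Finset.induction_on with
  | empty => simpa using laurentRel_zero
  | insert a s ha ih =>
    rw [Finset.sum_insert ha, Finset.sum_insert ha]
    exact (H a (Finset.mem_insert_self a s)).add
      (ih (fun i hi => H i (Finset.mem_insert_of_mem hi)))

/-- Relation transfer over `ℂ`: a `ℂ`-linear relation between the functions `Θ r` holds
between the Laurent series. -/
theorem gen11Theta_transfer (N : ℕ) [NeZero N] (n : ℕ) (c : Fin n → ℂ) (r : Fin n → ↥(Rsub N))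
    (h : (∑ i, c i • gen11Theta N (r i)) = 0) :
    ∑ i, c i • ModularCurve.coeffMap gen11Iota
      (((r i : ↥(ModularCurve.modularFunctionFieldBar N)) :
        LaurentSeries (AlgebraicClosure ℚ))) = 0 := by
  have h1 : LaurentRel (∑ i, c i • gen11Theta N (r i)) (∑ i, c i • gen11PhiR N (r i)) :=
    LaurentRel.sum _ (fun i _ => (gen11Theta_rel N (r i)).smul (c i))
  rw [h] at h1
  exact (h1.unique_right laurentRel_zero)

/-- **GEN-11**: helper23's `CoreStatement`. -/
theorem core (N : ℕ) [NeZero N] : CoreStatement N :=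
  ⟨gen11Iota, gen11Theta N, gen11Theta_injective N, gen11Theta_mdifferentiable N,
    gen11Theta_algebraMap N,
    fun d hd hdN h => by
      have := hd
      exact gen11Theta_jBarD N d hdN h,
    gen11_exists_frac N⟩

/-- The variant of `core` with relation transfer over `ℂ` (for GEN-16). -/
theorem core_rt (N : ℕ) [NeZero N] :
    ∃ (ι : AlgebraicClosure ℚ →+* ℂ) (Θ : ↥(Fermat.Agent.H23.Rsub N) →+* (ℍ → ℂ)),
      (∀ c : AlgebraicClosure ℚ,
        Θ (algebraMap (AlgebraicClosure ℚ) ↥(Fermat.Agent.H23.Rsub N) c) = fun _ => ι c) ∧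
      (∀ (d : ℕ) (_ : NeZero d) (hd : d ∣ N)
        (h : Fermat.Agent.H23.jBarD N d hd ∈ Fermat.Agent.H23.Rsub N),
        Θ ⟨Fermat.Agent.H23.jBarD N d hd, h⟩
          = fun z => Fermat.Agent.H23.jfun (Fermat.Agent.H23.scaleH d z)) ∧
      (∀ (n : ℕ) (c : Fin n → ℂ) (r : Fin n → ↥(Fermat.Agent.H23.Rsub N)),
        (∑ i, c i • Θ (r i)) = 0 →
        ∑ i, c i • ModularCurve.coeffMap ι
          (((r i : ↥(ModularCurve.modularFunctionFieldBar N)) :
            LaurentSeries (AlgebraicClosure ℚ))) = 0) :=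
  ⟨gen11Iota, gen11Theta N, gen11Theta_algebraMap N,
    fun d hd hdN h => by
      have := hd
      exact gen11Theta_jBarD N d hdN h,
    gen11Theta_transfer N⟩

end Fermat.Agent.H44

end
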